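import Mathlib

/-!
# The alternating form on a two-dimensional space over `𝔽₂`
-/

set_option autoImplicit false
set_option linter.unusedSectionVars false

namespace Fermat.Agent.P2.Iso

variable {V : Type*} [AddCommGroup V]

open Classical in
/-- The alternating form on a two-dimensional space over `𝔽₂`. -/
noncomputable def Bf (x y : V) : ZMod 2 := if x = 0 ∨ y = 0 ∨ x = y then 0 else 1

theorem Bf_zero_left (y : V) : Bf 0 y = 0 := by
  unfold Bf
  rw [if_pos (Or.inl rfl)]

theorem Bf_zero_right (x : V) : Bf x 0 = 0 := by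
  unfold Bf
  rw [if_pos (Or.inr (Or.inl rfl))]

theorem Bf_self (x : V) : Bf x x = 0 := by
  unfold Bf
  rw [if_pos (Or.inr (Or.inr rfl))]

theorem Bf_eq_zero_iff {x y : V} : Bf x y = 0 ↔ x = 0 ∨ y = 0 ∨ x = y := by
  unfold Bf
  constructor
  · intro h
    by_contra hne
    rw [if_neg hne] at h
    exact one_ne_zero h
  · intro h
    rw [if_pos h]

theorem Bf_map {W : Type*} [AddCommGroup W] (f : V →+ W) (hf : Function.Injective f) (x y : V) :
    Bf (f x) (f y) = Bf x y := by
  unfold Bf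
  congr 1
  rw [map_eq_zero_iff f hf, map_eq_zero_iff f hf, hf.eq_iff]

theorem Bf_prod (x y : ZMod 2 × ZMod 2) : Bf x y = x.1 * y.2 + x.2 * y.1 := by
  have h : ∀ x y : ZMod 2 × ZMod 2,
      (if x = 0 ∨ y = 0 ∨ x = y then (0 : ZMod 2) else 1) = x.1 * y.2 + x.2 * y.1 := by decide
  rw [← h]
  unfold Bf
  congr 1

section Module

variable [Module (ZMod 2) V]

theorem add_self_eq (x : V) : x + x = 0 := by
  have h : (2 : ZMod 2) • x = x + x := two_smul _ x
  have h2 : (2 : ZMod 2) = 0 := rfl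
  rw [← h, h2, zero_smul]

theorem neg_eq_self (x : V) : -x = x := neg_eq_of_add_eq_zero_left (add_self_eq x)

theorem sub_eq_add' (x y : V) : x - y = x + y := by rw [sub_eq_add_neg, neg_eq_self]

variable (hV : Module.finrank (ZMod 2) V = 2)

include hV

theorem exists_equiv : Nonempty (V ≃ₗ[ZMod 2] ZMod 2 × ZMod 2) := by
  have : FiniteDimensional (ZMod 2) V := FiniteDimensional.of_finrank_pos (by rw [hV]; norm_num)
  refine ⟨LinearEquiv.ofFinrankEq V (ZMod 2 × ZMod 2) ?_⟩
  rw [hV, Module.finrank_prod, Module.finrank_self]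

theorem Bf_add_left (x y z : V) : Bf (x + y) z = Bf x z + Bf y z := by
  obtain ⟨e⟩ := exists_equiv hV
  have h := fun a b => Bf_map (e : V →+ ZMod 2 × ZMod 2) e.injective a b
  rw [← h, ← h, ← h, Bf_prod, Bf_prod, Bf_prod]
  rw [map_add, Prod.fst_add, Prod.snd_add]
  ring

theorem Bf_add_right (x y z : V) : Bf x (y + z) = Bf x y + Bf x z := by
  obtain ⟨e⟩ := exists_equiv hV
  have h := fun a b => Bf_map (e : V →+ ZMod 2 × ZMod 2) e.injective a b
  rw [← h, ← h, ← h, Bf_prod, Bf_prod, Bf_prod]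
  rw [map_add, Prod.fst_add, Prod.snd_add]
  ring

/-- two distinct nonzero vectors exhaust the space -/
theorem eq_of_ne {x y : V} (hx : x ≠ 0) (hy : y ≠ 0) (hxy : x ≠ y) (v : V) :
    v = 0 ∨ v = x ∨ v = y ∨ v = x + y := by
  obtain ⟨e⟩ := exists_equiv hV
  have h : ∀ a b c d v w : ZMod 2, ((a, b) : ZMod 2 × ZMod 2) = 0 ∨ ((c, d) : ZMod 2 × ZMod 2) = 0 ∨
      ((a, b) : ZMod 2 × ZMod 2) = (c, d) ∨ ((v, w) : ZMod 2 × ZMod 2) = 0 ∨
      ((v, w) : ZMod 2 × ZMod 2) = (a, b) ∨ ((v, w) : ZMod 2 × ZMod 2) = (c, d) ∨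
      ((v, w) : ZMod 2 × ZMod 2) = (a, b) + (c, d) := by decide
  have h1 := ((h (e x).1 (e x).2 (e y).1 (e y).2 (e v).1 (e v).2).resolve_left
    (fun h0 => hx ((map_eq_zero_iff e e.injective).mp h0))).resolve_left
    (fun h0 => hy ((map_eq_zero_iff e e.injective).mp h0)) |>.resolve_left
    (fun h0 => hxy (e.injective h0))
  simp only [Prod.mk.eta] at h1
  rw [map_eq_zero_iff e e.injective, e.injective.eq_iff, e.injective.eq_iff, ← map_add,
    e.injective.eq_iff] at h1
  exact h1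

/-- The fixed vectors of a nontrivial map are isotropic. -/
theorem Bf_eq_zero_of_fixed {A : V →ₗ[ZMod 2] V} (hA : A ≠ 1) {x y : V} (hx : A x = x)
    (hy : A y = y) : Bf x y = 0 := by
  by_contra hne
  rw [Bf_eq_zero_iff] at hne
  push Not at hne
  obtain ⟨h1, h2, h3⟩ := hne
  apply hA
  ext v
  rcases eq_of_ne hV h1 h2 h3 v with rfl | rfl | rfl | rfl
  · simp
  · exact hx
  · exact hy
  · rw [map_add, hx, hy]; rfl

/-- A vector orthogonal to a nonzero vector fixed by a transvection lies in the image of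
`A - 1`. -/
theorem exists_sub_eq {A : V →ₗ[ZMod 2] V} (hA : A ≠ 1) (hA2 : A * A = 1) {x y : V} (hy0 : y ≠ 0)
    (hy : A y = y) (hxy : Bf x y = 0) : ∃ u, x = A u - u := by
  rcases Bf_eq_zero_iff.mp hxy with h | h | h
  · exact ⟨0, by rw [h, map_zero, sub_zero]⟩
  · exact absurd h hy0
  · subst h
    obtain ⟨u, hu⟩ : ∃ u, A u ≠ u := by
      by_contra hcon
      push Not at hcon
      exact hA (LinearMap.ext hcon)
    have ht0 : A u - u ≠ 0 := sub_ne_zero.mpr hu
    have ht : A (A u - u) = A u - u := by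
      have h1 : A (A u) = u := LinearMap.congr_fun hA2 u
      rw [map_sub, h1, sub_eq_add', sub_eq_add', add_comm]
    have h1 := Bf_eq_zero_of_fixed hV hA ht hy
    rcases Bf_eq_zero_iff.mp h1 with h | h | h
    · exact absurd h ht0
    · exact absurd h hy0
    · exact ⟨u, h.symm⟩

end Module

end Fermat.Agent.P2.Iso
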