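import Mathlib
import Fermat.Agent.P2.Iso.Alg
import Fermat.Agent.P2.Sel.Defs
import Fermat.Agent.P2.Hasse.Sum
import Fermat.Agent.TWP.GW.Local
import Fermat.Agent.Mazur.Kummer

/-!
# Isotropy: the killing step

From the reciprocity law for `H²(G_ℚ, μ_2)` we deduce `Iso ρ S`.
-/

set_option autoImplicit false
set_option linter.unusedSectionVars false

open ExtCitation NumberField Pointwise

namespace Fermat.Agent.P2.Iso

open Fermat.Agent.P2.Sel Fermat.Agent.P2.Hasse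
open Fermat.Agent.CFT.LC

local notation "Qb" => AlgebraicClosure ℚ

variable {V : Type} [AddCommGroup V] [Module (ZMod 2) V] {ρ : Representation (ZMod 2) GQ V}
  {v w : GQ → V}

theorem coc_one (h : IsCoc ρ v) : v 1 = 0 := by
  have h1 := h 1 1
  rw [mul_one, map_one, Module.End.one_apply] at h1
  exact left_eq_add.mp h1

theorem rho_inv_apply (g : GQ) (x : V) : ρ g⁻¹ (ρ g x) = x := by
  rw [← Module.End.mul_apply, ← map_mul, inv_mul_cancel, map_one, Module.End.one_apply]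

theorem rho_injective (g : GQ) : Function.Injective (ρ g) := by
  intro x y h
  rw [← rho_inv_apply (ρ := ρ) g x, h, rho_inv_apply]

theorem Bf_rho (g : GQ) (x y : V) : Bf (ρ g x) (ρ g y) = Bf x y :=
  Bf_map ((ρ g : V →ₗ[ZMod 2] V) : V →+ V) (rho_injective g) x y

/-- the cup product -/
noncomputable def cup (ρ : Representation (ZMod 2) GQ V) (v w : GQ → V) (x : GQ × GQ) : ZMod 2 :=
  Bf (v x.1) (ρ x.1 (w x.2))

theorem rho_mul_apply (g h : GQ) (x : V) : ρ (g * h) x = ρ g (ρ h x) := by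
  rw [map_mul, Module.End.mul_apply]

theorem cup_coc (hV : Module.finrank (ZMod 2) V = 2) (hv : IsCoc ρ v) (hw : IsCoc ρ w)
    (g h j : GQ) :
    cup ρ v w (g * h, j) + cup ρ v w (g, h) = cup ρ v w (h, j) + cup ρ v w (g, h * j) := by
  simp only [cup]
  rw [hv g h, hw h j, rho_mul_apply, map_add, Bf_add_left hV, Bf_add_right hV, Bf_rho]
  ring

theorem cup_mul_mul {g h s t : GQ} (hv : IsCoc ρ v) (hw : IsCoc ρ w) (hs : ρ s = 1 ∧ v s = 0)
    (ht : w t = 0) : cup ρ v w (g * s, h * t) = cup ρ v w (g, h) := by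
  simp only [cup]
  rw [hv g s, hw h t, hs.2, ht, map_zero, map_zero, add_zero, add_zero, map_mul, hs.1, mul_one]

/-- local triviality at the places where both cocycles are "on the line" -/
theorem loc_triv (hV : Module.finrank (ZMod 2) V = 2) (hv : IsCoc ρ v) (hw : IsCoc ρ w)
    {P : ValuationSubring Qb} (hvP : LineAt ρ P v) (hwP : LineAt ρ P w)
    (hP : ∃ g ∈ P.decompositionSubgroup ℚ, ρ g ≠ 1) :
    ∃ c : GQ → ZMod 2, (∀ g s : GQ, ρ s = 1 → v s = 0 → w s = 0 → c (g * s) = c g) ∧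
      ∀ g ∈ P.decompositionSubgroup ℚ, ∀ h ∈ P.decompositionSubgroup ℚ,
        cup ρ v w (g, h) = c h - c (g * h) + c g := by
  obtain ⟨x, hx⟩ := hvP
  obtain ⟨y, hy⟩ := hwP
  obtain ⟨g0, hg0, hg01⟩ := hP
  set v' : GQ → V := fun g => v g - (ρ g x - x) with hv'
  set w' : GQ → V := fun g => w g - (ρ g y - y) with hw'
  have hiso : ∀ g ∈ P.decompositionSubgroup ℚ, ∀ h ∈ P.decompositionSubgroup ℚ,
      Bf (v' g) (w' h) = 0 := fun g hg h hh =>
    Bf_eq_zero_of_fixed hV hg01 (hx g hg g0 hg0) (hy h hh g0 hg0)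
  have hv'c : ∀ g h, v' (g * h) = v' g + ρ g (v' h) := by
    intro g h
    simp only [hv']
    rw [hv g h, rho_mul_apply, map_sub, map_sub]
    abel
  refine ⟨fun g => Bf x (w g) + Bf (v' g) (ρ g y), fun g s h1 h2 h3 => ?_, fun g hg h hh => ?_⟩
  · have e1 : w (g * s) = w g := by rw [hw g s, h3, map_zero, add_zero]
    have e2 : ρ (g * s) = ρ g := by rw [map_mul, h1, mul_one]
    have e3 : v' (g * s) = v' g := by
      simp only [hv']
      rw [hv g s, h2, map_zero, add_zero, e2]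
    simp only [e1, e2, e3]
  · have e1 : v g = v' g + ρ g x + x := by
      simp only [hv']
      rw [sub_eq_add', sub_eq_add']
      have h1 := add_self_eq (ρ g x)
      have h2 := add_self_eq x
      calc v g = v g + (ρ g x + ρ g x) + (x + x) := by rw [h1, h2, add_zero, add_zero]
        _ = _ := by abel
    have e2 : w h = w' h + ρ h y + y := by
      simp only [hw']
      rw [sub_eq_add', sub_eq_add']
      have h1 := add_self_eq (ρ h y)
      have h2 := add_self_eq y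
      calc w h = w h + (ρ h y + ρ h y) + (y + y) := by rw [h1, h2, add_zero, add_zero]
        _ = _ := by abel
    have e3 : Bf (v' g) (ρ g (w' h)) = 0 := by
      have h1 : ρ g (w' h) = w' h := hy h hh g hg
      rw [h1]
      exact hiso g hg h hh
    have e4 : Bf (v' g) (ρ g (w h)) = Bf (v' g) (ρ g (ρ h y)) + Bf (v' g) (ρ g y) := by
      rw [e2, map_add, map_add, Bf_add_right hV, Bf_add_right hV, e3, zero_add]
    show Bf (v g) (ρ g (w h)) = (Bf x (w h) + Bf (v' h) (ρ h y)) -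
      (Bf x (w (g * h)) + Bf (v' (g * h)) (ρ (g * h) y)) + (Bf x (w g) + Bf (v' g) (ρ g y))
    rw [hv'c g h, hw g h, rho_mul_apply, Bf_add_right hV x, Bf_add_left hV (v' g), Bf_rho,
      show Bf (v g) (ρ g (w h)) = Bf (v' g + ρ g x + x) (ρ g (w h)) from by rw [← e1],
      Bf_add_left hV, Bf_add_left hV, Bf_rho, e4]
    have key : ∀ a b c d e f : ZMod 2, a + b + c + d = c + e - (f + d + (a + e)) + (f + b) := by
      decide
    exact key _ _ _ _ _ _

/-- a common level -/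
theorem exists_level (hv : IsCoc ρ v) (hw : IsCoc ρ w) (hvl : LevelConst v) (hwl : LevelConst w)
    (hρ : ∃ L : IntermediateField ℚ Qb, FiniteDimensional ℚ L ∧
      ∀ h : GQ, (∀ x ∈ L, h x = x) → ρ h = 1) (S' : Finset Nat.Primes)
    (hur : ∀ q : Nat.Primes, q ∉ S' → ∀ A : ValuationSubring Qb, A.LiesOverPrime (q : ℕ) →
      ∀ g ∈ A.inertiaSubgroupIn ℚ, ρ g = 1 ∧ v g = 0 ∧ w g = 0) :
    ∃ N ∈ (unram S').levels, ∀ s ∈ N, ρ s = 1 ∧ v s = 0 ∧ w s = 0 := by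
  let U : Subgroup GQ :=
    { carrier := {g | ρ g = 1 ∧ v g = 0 ∧ w g = 0}
      one_mem' := ⟨map_one ρ, coc_one hv, coc_one hw⟩
      mul_mem' := by
        rintro a b ⟨h1, h2, h3⟩ ⟨h1', h2', h3'⟩
        refine ⟨by rw [map_mul, h1, h1', one_mul], ?_, ?_⟩
        · rw [hv a b, h2, h2', map_zero, add_zero]
        · rw [hw a b, h3, h3', map_zero, add_zero]
      inv_mem' := by
        rintro a ⟨h1, h2, h3⟩
        have e1 : ρ a⁻¹ = 1 := by
          have := congrArg ρ (inv_mul_cancel a)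
          rwa [map_mul, h1, mul_one, map_one] at this
        refine ⟨e1, ?_, ?_⟩
        · have := hv a⁻¹ a
          rw [inv_mul_cancel, coc_one hv, h2, map_zero, add_zero] at this
          exact this.symm
        · have := hw a⁻¹ a
          rw [inv_mul_cancel, coc_one hw, h3, map_zero, add_zero] at this
          exact this.symm }
  have hU : (unram S').IsOpen U := by
    rw [isOpen_unram_iff_inertia]
    refine ⟨?_, fun q hq A hA g hg => hur q hq A hA g hg⟩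
    rw [isOpen_krull_iff]
    obtain ⟨L1, hL1, h1⟩ := hvl
    obtain ⟨L2, hL2, h2⟩ := hwl
    obtain ⟨L3, hL3, h3⟩ := hρ
    have hfin : FiniteDimensional ℚ (L1 ⊔ L2 : IntermediateField ℚ Qb) :=
      IntermediateField.finiteDimensional_sup L1 L2
    refine ⟨(L1 ⊔ L2) ⊔ L3, IntermediateField.finiteDimensional_sup (L1 ⊔ L2) L3, fun g hg => ?_⟩
    rw [IntermediateField.mem_fixingSubgroup_iff] at hg
    have hg1 : ∀ x ∈ L1, g x = x := fun x hx =>
      hg x ((le_sup_left : L1 ⊔ L2 ≤ (L1 ⊔ L2) ⊔ L3) ((le_sup_left : L1 ≤ L1 ⊔ L2) hx))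
    have hg2 : ∀ x ∈ L2, g x = x := fun x hx =>
      hg x ((le_sup_left : L1 ⊔ L2 ≤ (L1 ⊔ L2) ⊔ L3) ((le_sup_right : L2 ≤ L1 ⊔ L2) hx))
    have hg3 : ∀ x ∈ L3, g x = x := fun x hx =>
      hg x ((le_sup_right : L3 ≤ (L1 ⊔ L2) ⊔ L3) hx)
    refine ⟨h3 g hg3, ?_, ?_⟩
    · have := h1 1 g hg1
      rwa [one_mul, coc_one hv] at this
    · have := h2 1 g hg2
      rwa [one_mul, coc_one hw] at this
  obtain ⟨N, hN, hle⟩ := hU
  exact ⟨N, hN, fun s hs => hle hs⟩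

/-- triviality at infinity -/
theorem cup_conj (hV : Module.finrank (ZMod 2) V = 2) (hv : IsCoc ρ v) (hw : IsCoc ρ w)
    (hc : ρ complexConjugation ≠ 1) :
    cup ρ v w (complexConjugation, complexConjugation) = cup ρ v w (1, 1) := by
  have key : ∀ f : GQ → V, IsCoc ρ f → ρ complexConjugation (f complexConjugation) =
      f complexConjugation := by
    intro f hf
    have h1 := hf complexConjugation complexConjugation
    have h2 : (complexConjugation : GQ) * complexConjugation = 1 := complexConjugation_mul_self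
    rw [h2, coc_one hf] at h1
    have h3 := eq_neg_of_add_eq_zero_right h1.symm
    rwa [neg_eq_self] at h3
  simp only [cup]
  rw [coc_one hv, Bf_zero_left, key w hw]
  exact Bf_eq_zero_of_fixed hV hc (key v hv) (key w hw)

/-- **The local computation** at `q`. -/
theorem local_step (hV : Module.finrank (ZMod 2) V = 2) (hw : IsCoc ρ w)
    (hwl : LevelConst w) {q : ℕ} (hq : q.Prime) (hq2 : q ≠ 2) {P : ValuationSubring Qb}
    (hP : P.LiesOverPrime q) (hρI : ∀ g ∈ P.inertiaSubgroupIn ℚ, ρ g = 1)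
    (hvI : ∀ g ∈ P.inertiaSubgroupIn ℚ, v g = 0) {φ : GQ} (hφ : P.IsFrobeniusAt φ q)
    (hρφ : ρ φ ≠ 1) (hρφ2 : ρ φ * ρ φ = 1) (hvφ : ∀ x : V, v φ ≠ ρ φ x - x) (c : GQ → ZMod 2)
    (hc : ∀ g ∈ P.decompositionSubgroup ℚ, ∀ h ∈ P.decompositionSubgroup ℚ,
      cup ρ v w (g, h) = c h - c (g * h) + c g)
    (hcl : ∃ L : IntermediateField ℚ Qb, FiniteDimensional ℚ L ∧
      ∀ σ ∈ P.decompositionSubgroup ℚ, (∀ x ∈ L, σ x = x) → c σ = 0) :
    ∀ τ ∈ P.inertiaSubgroupIn ℚ, w τ = 0 := by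
  intro τ hτ
  have hq2' : ¬ q ∣ 2 := fun h => hq2 ((Nat.prime_dvd_prime_iff_eq hq Nat.prime_two).mp h)
  have hqodd : Odd q := hq.odd_of_ne_two hq2
  have hID : ∀ g ∈ P.inertiaSubgroupIn ℚ, g ∈ P.decompositionSubgroup ℚ := fun g hg =>
    ((Fermat.Agent.TWP.Place.mem_inertiaSubgroupIn_iff P g).mp hg).1
  have hφD : φ ∈ P.decompositionSubgroup ℚ := hφ.mem_decompositionSubgroup
  have hφA : φ • P = P := hφD
  have hconj : φ * τ * φ⁻¹ ∈ P.inertiaSubgroupIn ℚ := by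
    have := Fermat.Agent.TWP.Place.mem_inertia_conj φ hτ
    rwa [hφA] at this
  have hfd : FiniteDimensional (ZMod 2) V := FiniteDimensional.of_finrank_pos (by rw [hV]; norm_num)
  have hfin : Finite V := Module.finite_of_finite (ZMod 2)
  -- `w` on inertia
  obtain ⟨L, hL, hL2⟩ := hwl
  have hw1 : w (φ * τ * φ⁻¹) = q • w τ :=
    Fermat.Agent.Mazur.Kummer.conj_eq P hq hP (n := 2) hq2'
      (fun x => by rw [two_nsmul]; exact add_self_eq x) w
      (fun σ hσ τ _ => by rw [hw σ τ, hρI σ hσ, Module.End.one_apply])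
      ⟨L, hL, fun σ _ hσL => by
        have := hL2 1 σ hσL
        rwa [one_mul, coc_one hw] at this⟩ hφ hτ
  have hodd : ∀ {C : Type} [AddCommGroup C] [Module (ZMod 2) C] (x : C), q • x = x := by
    intro C _ _ x
    obtain ⟨k, hk⟩ := hqodd
    rw [hk, add_smul, one_smul, mul_comm, mul_smul, two_nsmul, add_self_eq, smul_zero, zero_add]
  rw [hodd] at hw1
  have hw2 : w (φ * τ * φ⁻¹) = ρ φ (w τ) := by
    rw [hw (φ * τ) φ⁻¹, hw φ τ, map_mul, hρI τ hτ, mul_one]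
    have h1 := hw φ φ⁻¹
    rw [mul_inv_cancel, coc_one hw] at h1
    have h2 : w φ + ρ φ (w τ) + ρ φ (w φ⁻¹) = (w φ + ρ φ (w φ⁻¹)) + ρ φ (w τ) := by abel
    rw [h2, ← h1, zero_add]
  have hwτ : ρ φ (w τ) = w τ := by rw [← hw2, hw1]
  -- `c` on inertia
  have hcupI : ∀ g ∈ P.inertiaSubgroupIn ℚ, ∀ h, cup ρ v w (g, h) = 0 := by
    intro g hg h
    simp only [cup]
    rw [hvI g hg, Bf_zero_left]
  have hcI : ∀ g ∈ P.inertiaSubgroupIn ℚ, ∀ h ∈ P.decompositionSubgroup ℚ,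
      c (g * h) = c g + c h := by
    intro g hg h hh
    have h1 := hc g (hID g hg) h hh
    rw [hcupI g hg] at h1
    have key : ∀ a b d : ZMod 2, 0 = a - b + d → b = d + a := by decide
    exact key _ _ _ h1
  obtain ⟨L', hL', hL'2⟩ := hcl
  have hc1 : c (φ * τ * φ⁻¹) = q • c τ :=
    Fermat.Agent.Mazur.Kummer.conj_eq P hq hP (n := 2) hq2'
      (fun x => by rw [two_nsmul]; exact add_self_eq x) c
      (fun σ hσ τ hτ => hcI σ hσ τ (hID τ hτ))
      ⟨L', hL', fun σ hσ hσL => hL'2 σ (hID σ hσ) hσL⟩ hφ hτ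
  rw [hodd] at hc1
  have h1 := hc φ hφD τ (hID τ hτ)
  have h2 : c (φ * τ) = c τ + c φ := by
    have h3 := hcI _ hconj φ hφD
    rw [inv_mul_cancel_right, hc1] at h3
    exact h3
  rw [h2] at h1
  have h3 : Bf (v φ) (w τ) = 0 := by
    have h4 : cup ρ v w (φ, τ) = Bf (v φ) (w τ) := by
      simp only [cup]
      rw [hwτ]
    rw [← h4, h1]
    ring
  by_contra hne
  obtain ⟨u, hu⟩ := exists_sub_eq hV hρφ hρφ2 hne hwτ h3
  exact hvφ u hu

local instance instFactPrimes6 (q : Nat.Primes) : Fact (q : ℕ).Prime := ⟨q.2⟩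

/-- Transport of a local coboundary to the decomposition group. -/
theorem exists_on_decomp (hv : IsCoc ρ v) (hw : IsCoc ρ w) (q : Nat.Primes) {N : Subgroup GQ}
    (hN : (krull ℚ Qb).IsOpen N) (hN2 : ∀ s ∈ N, ρ s = 1 ∧ v s = 0 ∧ w s = 0)
    {cl : primeLocalGaloisGroup q → ZMod 2} (hcl : IsLC₁ (lvlOver (primeLocalToGlobal q)) cl)
    (hcl2 : ∀ a b, cup ρ v w (primeLocalToGlobal q a, primeLocalToGlobal q b) =
      cl b - cl (a * b) + cl a) :
    ∃ c : GQ → ZMod 2, (∀ g ∈ (primeLocalPlace q).decompositionSubgroup ℚ,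
      ∀ h ∈ (primeLocalPlace q).decompositionSubgroup ℚ,
        cup ρ v w (g, h) = c h - c (g * h) + c g) ∧
      ∃ L : IntermediateField ℚ Qb, FiniteDimensional ℚ L ∧
        ∀ σ ∈ (primeLocalPlace q).decompositionSubgroup ℚ, (∀ x ∈ L, σ x = x) → c σ = 0 := by
  classical
  obtain ⟨_, ⟨N1, hN1, rfl⟩, hcl1⟩ := hcl
  obtain ⟨N0, hN0, hN0N⟩ := hN
  obtain ⟨N2, hN2', hle0, hle1⟩ := (krull ℚ Qb).directed N0 hN0 N1 hN1
  have hN2n := (krull ℚ Qb).normal N2 hN2'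
  have hd := Fermat.Agent.TWP.GW.denseIn q N2 hN2'
  choose! γ u hu hγ using hd
  let D : Subgroup GQ := (primeLocalPlace q).decompositionSubgroup ℚ
  let r : primeLocalGaloisGroup q →* GQ := primeLocalToGlobal q
  have hrD : ∀ a, r a ∈ D := Fermat.Agent.TWP.GW.primeLocalToGlobal_mem q
  let c : GQ → ZMod 2 := fun d => cl (γ d)
  have hc : ∀ (a : primeLocalGaloisGroup q), ∀ s ∈ N2, r a * s ∈ D → c (r a * s) = cl a := by
    intro a s hs hD
    have h1 : r a * s = r (γ (r a * s)) * u (r a * s) := hγ _ hD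
    have h2 : r (a⁻¹ * γ (r a * s)) ∈ N1 := by
      apply hle1
      have h3 : r (a⁻¹ * γ (r a * s)) = s * (u (r a * s))⁻¹ := by
        rw [map_mul, map_inv, eq_mul_inv_iff_mul_eq, mul_assoc, ← h1, inv_mul_cancel_left]
      rw [h3]
      exact mul_mem hs (inv_mem (hu _ hD))
    have h4 := hcl1 a (a⁻¹ * γ (r a * s)) h2
    rw [mul_inv_cancel_left] at h4
    exact h4
  have hN2N : ∀ s ∈ N2, ρ s = 1 ∧ v s = 0 ∧ w s = 0 := fun s hs => hN2 s (hN0N (hle0 hs))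
  have hcl0 : cl 1 = 0 := by
    have h1 := hcl2 1 1
    rw [map_one, mul_one, sub_self, zero_add] at h1
    rw [← h1]
    simp only [cup]
    rw [coc_one hv, Bf_zero_left]
  refine ⟨c, fun g hg h hh => ?_, ?_⟩
  · have hg1 : g = r (γ g) * u g := hγ g hg
    have hh1 : h = r (γ h) * u h := hγ h hh
    have hug := hu g hg
    have huh := hu h hh
    have e1 : g * h = r (γ g * γ h) * ((r (γ h))⁻¹ * u g * r (γ h) * u h) := by
      rw [map_mul]
      conv_lhs => rw [hg1, hh1]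
      group
    have hmem : (r (γ h))⁻¹ * u g * r (γ h) * u h ∈ N2 := by
      refine mul_mem ?_ huh
      have := hN2n.conj_mem _ hug (r (γ h))⁻¹
      rwa [inv_inv] at this
    have h1 : c (g * h) = cl (γ g * γ h) := by
      rw [e1]
      exact hc _ _ hmem (by rw [← e1]; exact mul_mem hg hh)
    rw [h1]
    show _ = cl (γ h) - cl (γ g * γ h) + cl (γ g)
    rw [← hcl2 (γ g) (γ h)]
    conv_lhs => rw [hg1, hh1]
    exact cup_mul_mul hv hw ⟨(hN2N _ hug).1, (hN2N _ hug).2.1⟩ (hN2N _ huh).2.2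
  · obtain ⟨F, hF, -, hFN⟩ := hN2'
    refine ⟨F, hF, fun σ hσ hσF => ?_⟩
    have hσN : σ ∈ N2 := by
      rw [hFN, IntermediateField.mem_fixingSubgroup_iff]
      exact hσF
    have h1 := hc 1 σ hσN (by rw [map_one, one_mul]; exact hσ)
    rw [map_one, one_mul, hcl0] at h1
    exact h1

/-- conjugating a Frobenius element -/
theorem frob_conj_ne (hv : IsCoc ρ v) {g φ : GQ} (hvφ : ∀ x : V, v φ ≠ ρ φ x - x) (x : V) :
    v (g⁻¹ * φ * g) ≠ ρ (g⁻¹ * φ * g) x - x := by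
  intro h
  apply hvφ (ρ g x - v g)
  have h1 : ρ g (v g⁻¹) = -v g := by
    have h2 := hv g g⁻¹
    rw [mul_inv_cancel, coc_one hv] at h2
    exact (neg_eq_of_add_eq_zero_right h2.symm).symm
  have h2 := congrArg (ρ g) h
  rw [hv (g⁻¹ * φ) g, hv g⁻¹ φ, map_add, map_add, h1, map_sub] at h2
  simp only [rho_mul_apply] at h2
  have e1 : ∀ y : V, ρ g (ρ g⁻¹ y) = y := fun y => by
    rw [← rho_mul_apply, mul_inv_cancel, map_one, Module.End.one_apply]
  simp only [e1] at h2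
  have h3 : v φ = -(-v g) + (-v g + v φ + ρ φ (v g)) - ρ φ (v g) := by abel
  rw [h3, h2, map_sub]
  abel

/-- vanishing on inertia is invariant under conjugation -/
theorem unrAt_smul (hw : IsCoc ρ w) {P : ValuationSubring Qb}
    (hρ : ∀ g ∈ P.inertiaSubgroupIn ℚ, ρ g = 1) (h : ∀ g ∈ P.inertiaSubgroupIn ℚ, w g = 0)
    (g : GQ) : ∀ τ ∈ (g • P).inertiaSubgroupIn ℚ, w τ = 0 := by
  intro τ hτ
  have h1 : g⁻¹ * τ * g ∈ P.inertiaSubgroupIn ℚ := by
    have := Fermat.Agent.TWP.Place.mem_inertia_conj g⁻¹ hτ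
    rwa [inv_smul_smul, inv_inv] at this
  have h2 : τ = g * (g⁻¹ * τ * g) * g⁻¹ := by group
  rw [h2, hw (g * (g⁻¹ * τ * g)) g⁻¹, hw g, h _ h1, map_zero, add_zero, map_mul, hρ _ h1, mul_one,
    ← hw g g⁻¹, mul_inv_cancel, coc_one hw]

/-- **Isotropy.** -/
theorem iso {S : Finset ℕ} (h : Hyp ρ S) : Iso ρ S := by
  classical
  intro Q q hQ hq hqQ v hv hF w hw
  obtain ⟨P, hP, φ, hφ, hvφ⟩ := hF
  obtain ⟨hvc, hvl, hvu, hvline⟩ := mem_SelOn.mp hv
  obtain ⟨hwc, hwl, hwu, hwline⟩ := mem_SelOn.mp hw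
  have hqS : q ∉ S := hq.2.1
  have hq2 : q ≠ 2 := by
    rintro rfl
    exact hqS h.two_mem
  have hV := h.finrank_eq
  -- the finite set of primes
  let S' : Finset Nat.Primes := (insert q (S ∪ Q)).subtype Nat.Prime
  have hS' : ∀ ℓ : Nat.Primes, ℓ ∈ S' ↔ (ℓ : ℕ) = q ∨ (ℓ : ℕ) ∈ S ∨ (ℓ : ℕ) ∈ Q := by
    intro ℓ
    have h1 : ℓ ∈ S' ↔ (ℓ : ℕ) ∈ insert q (S ∪ Q) := Finset.mem_subtype
    rw [h1, Finset.mem_insert, Finset.mem_union]
  let q0 : Nat.Primes := ⟨q, hq.1⟩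
  have hq0 : q0 ∈ S' := (hS' q0).mpr (Or.inl rfl)
  obtain ⟨N, hN, hN2⟩ := exists_level hvc hwc hvl hwl h.smooth S' (fun ℓ hℓ A hA g hg => by
    rw [hS'] at hℓ
    push Not at hℓ
    exact ⟨h.unram ℓ ℓ.2 hℓ.2.1 A hA g hg, hvu ℓ ℓ.2 (Set.mem_univ _) hℓ.2.1 hℓ.2.2 A hA g hg,
      hwu ℓ ℓ.2 hℓ.1 hℓ.2.1 hℓ.2.2 A hA g hg⟩)
  have hNk : (krull ℚ Qb).IsOpen N := by
    obtain ⟨N', hN', hle⟩ := cont_krull_unram S' N hN
    exact ⟨N', hN', hle⟩
  obtain ⟨cl, hcl1, hcl2⟩ := loc_cob S' ⟨⟨2, Nat.prime_two⟩,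
      (hS' _).mpr (Or.inr (Or.inl h.two_mem)), rfl⟩ (z := cup ρ v w)
    (cup_coc hV hvc hwc)
    ⟨N, hN, fun g g' s hs s' hs' => cup_mul_mul hvc hwc ⟨(hN2 s hs).1, (hN2 s hs).2.1⟩
      (hN2 s' hs').2.2⟩ (cup_conj hV hvc hwc h.conj) ⟨q0, hq0⟩ (by
    rintro ⟨ℓ, hℓ⟩ hne
    have hne' : (ℓ : ℕ) ≠ q := fun he => hne (Subtype.ext (Subtype.ext he))
    have hmem := (hS' ℓ).mp hℓ
    have hSQ : (ℓ : ℕ) ∈ S ∨ (ℓ : ℕ) ∈ Q := hmem.resolve_left hne'
    let A : ValuationSubring Qb := primeLocalPlace ℓ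
    have hA : A.LiesOverPrime (ℓ : ℕ) := Fermat.Agent.CFT.Unram.padicPlace_liesOverPrime (ℓ : ℕ)
    have hnt : ∃ g ∈ A.decompositionSubgroup ℚ, ρ g ≠ 1 := by
      rcases hSQ with hℓS | hℓQ
      · obtain ⟨t, ht, ht1⟩ := (h.ram ℓ hℓS A hA).1
        exact ⟨t, ((Fermat.Agent.TWP.Place.mem_inertiaSubgroupIn_iff A t).mp ht).1, ht1⟩
      · obtain ⟨σ, hσ⟩ := Fermat.Agent.FrobExists.exists_isFrobeniusAt A ℓ.2 hA
        exact ⟨σ, hσ.mem_decompositionSubgroup, ((hQ ℓ hℓQ).2.2 A hA σ hσ).1⟩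
    obtain ⟨c, hc1, hc2⟩ := loc_triv hV hvc hwc (hvline ℓ (Set.mem_univ _) hSQ A hA)
      (hwline ℓ hne' hSQ A hA) hnt
    refine ⟨fun a => c (primeLocalToGlobal ℓ a), ?_, fun a b => ?_⟩
    · obtain ⟨N', hN', hle⟩ := hNk
      refine ⟨_, ⟨N', hN', rfl⟩, fun a s hs => ?_⟩
      have h1 := hN2 _ (hle hs)
      show c (primeLocalToGlobal ℓ (a * s)) = _
      rw [map_mul]
      exact hc1 _ _ h1.1 h1.2.1 h1.2.2
    · show _ = c (primeLocalToGlobal ℓ b) - c (primeLocalToGlobal ℓ (a * b)) +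
        c (primeLocalToGlobal ℓ a)
      rw [map_mul]
      exact hc2 _ (Fermat.Agent.TWP.GW.primeLocalToGlobal_mem ℓ a) _
        (Fermat.Agent.TWP.GW.primeLocalToGlobal_mem ℓ b))
  obtain ⟨c, hc, hcL⟩ := exists_on_decomp hvc hwc q0 hNk hN2 hcl1 hcl2
  set P0 : ValuationSubring Qb := primeLocalPlace q0 with hP0def
  have hqF : Fact q.Prime := ⟨hq.1⟩
  have hP0 : P0.LiesOverPrime q := Fermat.Agent.CFT.Unram.padicPlace_liesOverPrime q
  obtain ⟨g, rfl⟩ := Fermat.Agent.FrobExists.exists_smul_eq P0 P hq.1 hP0 hP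
  have hφ0 : P0.IsFrobeniusAt (g⁻¹ * φ * g) q := by
    have := Fermat.Agent.TWP.Place.isFrobeniusAt_conj g⁻¹ hφ
    rwa [inv_smul_smul, inv_inv] at this
  have hρI : ∀ g ∈ P0.inertiaSubgroupIn ℚ, ρ g = 1 := h.unram q hq.1 hqS P0 hP0
  have hw0 := local_step hV hwc hwl hq.1 hq2 hP0 hρI
    (hvu q hq.1 (Set.mem_univ _) hqS hqQ P0 hP0) hφ0 (hq.2.2 P0 hP0 _ hφ0).1
    (hq.2.2 P0 hP0 _ hφ0).2 (frob_conj_ne hvc hvφ) c hc hcL
  intro P' hP'
  obtain ⟨g', rfl⟩ := Fermat.Agent.FrobExists.exists_smul_eq P0 P' hq.1 hP0 hP'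
  exact unrAt_smul hwc hρI hw0 g'

end Fermat.Agent.P2.Iso
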